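import Mathlib
import Fermat.Prelude.Def_WeierstrassCurve_ConductorLevel
import Fermat.Prelude.Def_FLTPrelim_ModularRep
import Fermat.Prelude.Def_CuspForm_HeckeGaloisRepDatum
import Fermat.Prelude.Def_CuspForm_Newforms
import Fermat.Prelude.Def_GaloisRep_LocalConditions
import Fermat.Prelude.Def_GaloisRep_Residual

/-!
# Row S59 / statement S58 (conductor–level matching) — frozen interface (architect helper41)

`S58 ⇐ S35 + S36 + NEWFORM (descent, stab: on main) + the five leaves below`, glue in `S58/Glue.lean`.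

Route.  `f` eigenform of level `N` for `W`; `descent` gives a newform `g` of level `M ∣ N`.
For a prime `lam` compare the `lam`-adic representation `ρ_g` of S35/S36 with the Tate module
`ρ_W` (leaf TATE): their Frobenius characteristic polynomials agree outside a finite set, hence
EVERYWHERE (leaf CHEB; only characteristic polynomials are ever compared — no isomorphism of
representations is needed, since `IsUnipotentOnInertiaAt` is a statement on characteristic
polynomials).  Consequences: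
* `a_ℓ(g) = a_ℓ(W)` for all good `ℓ ∤ M`, `ℓ ≠ lam`;
* `q² ∥ M`, `q ≠ p` is impossible (S36 at `lam = p`; `ρ_W` is unipotent on every inertia group);
* `q ∥ M`, `q` good is impossible (S35: `a_q(W) = ±(q+1)`, contradicting leaf COUNT).
Two primes `lam ∈ {p, p'}` cover all `q`, `ℓ`.  So `M ∣ rad Δ`, and `stab` raises `g` to level `rad Δ`.

Leaves (each a `Prop`; prove `theorem x : Fermat.Agent.S58.<Leaf>Statement`, own directory
`Fermat/Agent/S58/H<seat>/`):

| leaf | content | sources |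
|---|---|---|
| TATE  | `TateRepStatement`: Tate module of `W` over any complete DVR `O ∋ lam` (`lam` odd): Frobenius char. polys at good `ℓ ≠ lam`, unipotent inertia at ALL `q ≠ lam` | S59 layer CR (H127, H240, H667), Lib/Frob, Lib/Red |
| COEFF | `CoeffStatement`: a normalized eigenform has a Hecke character `chig` and a complete DVR `O' ∋ lam` receiving `chig.range` | S22 (finiteness), S30/S35 coefficient rings |
| CHEB  | `ChebCharpolyStatement`: two `GaloisRepAdic O` with equal Frobenius char. polys outside a finite set have equal char. polys everywhere | Lib/Cheb, S54.exists_frobenius, S31/H982 |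
| RES   | `ResidualStatement`: char. polys of `W` at almost all Frobenius ⇒ residual representation absolutely irreducible and odd (the hypothesis `hres` of S36) | S59/G4 (H178 Odd, H307 AbsIrr), Lib/Frob |
| COUNT | `PointCountStatement`: `a_q(W) ≠ ±(q+1)` (from `1 ≤ #E(𝔽_q) ≤ 2q+1`) | Mathlib only |
| FROB  | `FrobExistsStatement`: Frobenius elements exist at every prime | S54 |
-/

set_option autoImplicit false

open Polynomial

namespace Fermat.Agent.S58

/-- `ℚ̄` -/
abbrev Qb : Type := AlgebraicClosure ℚ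

/-- `Gal(ℚ̄/ℚ)` -/
abbrev GQ : Type := Qb ≃ₐ[ℚ] Qb

/-- The frozen statement S58. -/
def S58Statement : Prop :=
  ∀ (W : WeierstrassCurve ℤ) (_hss : W.IsSemistableModel) (N : ℕ)
    (p : ℕ) [Fact p.Prime] (_hp2 : p ≠ 2) (_hirr : W.ModRepIsIrreducible p)
    (_hp2N : ¬ p ^ 2 ∣ N)
    (_hN : W.IsModularModelOfLevel N) (_hbad : ∀ ℓ : ℕ, ℓ.Prime → (ℓ : ℤ) ∣ W.Δ → ℓ ∣ N)
    (_hN3 : ∀ q : ℕ, q.Prime → ¬ q ^ 3 ∣ N),
    W.IsModularModelOfLevel W.conductorLevel

/-- The frozen statement S35 (as a hypothesis). -/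
def S35Statement : Prop :=
  ∀ {M : ℕ} [NeZero M] {g : CuspForm (CongruenceSubgroup.Gamma0 M) 2} (_hg : g.IsNewform)
    (lam : ℕ) [Fact lam.Prime]
    (S : Finset ℕ)
    (O' : Type) [CommRing O'] [IsDomain O'] [IsDiscreteValuationRing O']
    [IsAdicComplete (IsLocalRing.maximalIdeal O') O'] [Finite (IsLocalRing.ResidueField O')]
    [CharZero O'] (_hlamO' : (lam : O') ∈ IsLocalRing.maximalIdeal O')
    (chig : CuspForm.heckeAlgebra M 2 (↑S : Set ℕ) →+* ℂ)
    (_hchig : ∀ (ℓ : ℕ) (hℓ : ℓ.Prime) (hℓM : ¬ ℓ ∣ M) (hℓS : ℓ ∉ (↑S : Set ℕ)),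
      chig (CuspForm.heckeAlgebra.T hℓ hℓM hℓS) = ModularFormClass.qCoeff g ℓ)
    (iota : chig.range →+* O')
    (_hlamS : lam ∈ S) (_hMS : ∀ q : ℕ, q.Prime → q ∣ M → q ∈ S),
    ∃ (O'' : Type) (_ : CommRing O'') (_ : IsDomain O'') (_ : IsDiscreteValuationRing O'')
      (_ : IsAdicComplete (IsLocalRing.maximalIdeal O'') O'') (_ : Finite (IsLocalRing.ResidueField O''))
      (_ : CharZero O'') (_ : Algebra O' O'') (_ : Module.Finite O' O'') (_ : IsLocalHom (algebraMap O' O'')),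
      Function.Injective (algebraMap O' O'') ∧
      ∃ ρ : GaloisRepAdic O'',
        (∀ (ℓ : ℕ) (hℓ : ℓ.Prime) (hℓM : ¬ ℓ ∣ M) (hℓS : ℓ ∉ (↑S : Set ℕ)),
          ∀ A : ValuationSubring (AlgebraicClosure ℚ), A.LiesOverPrime ℓ →
            ∀ σ : AlgebraicClosure ℚ ≃ₐ[ℚ] AlgebraicClosure ℚ, A.IsFrobeniusAt σ ℓ →
              LinearMap.charpoly (ρ.ρ σ) =
                X ^ 2 - C (algebraMap O' O'' ((iota.comp chig.rangeRestrict) (CuspForm.heckeAlgebra.T hℓ hℓM hℓS))) * X
                  + C ((ℓ : O''))) ∧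
        (∀ q : ℕ, q.Prime → q ≠ lam → q ∣ M → ¬ q ^ 2 ∣ M →
          ∀ A : ValuationSubring (AlgebraicClosure ℚ), A.LiesOverPrime q →
            ∀ σ : AlgebraicClosure ℚ ≃ₐ[ℚ] AlgebraicClosure ℚ, A.IsFrobeniusAt σ q →
              LinearMap.charpoly (ρ.ρ σ) = X ^ 2 - C ((q : O'') + 1) * X + C ((q : O'')) ∨
              LinearMap.charpoly (ρ.ρ σ) = X ^ 2 + C ((q : O'') + 1) * X + C ((q : O'')))

/-- The frozen statement S36 (as a hypothesis). -/
def S36Statement : Prop :=
  ∀ {M : ℕ} [NeZero M] {g : CuspForm (CongruenceSubgroup.Gamma0 M) 2} (_hg : g.IsNewform)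
    (lam : ℕ) [Fact lam.Prime]
    (S : Finset ℕ)
    (O' : Type) [CommRing O'] [IsDomain O'] [IsDiscreteValuationRing O']
    [IsAdicComplete (IsLocalRing.maximalIdeal O') O'] [Finite (IsLocalRing.ResidueField O')]
    [CharZero O'] (_hlamO' : (lam : O') ∈ IsLocalRing.maximalIdeal O')
    (_hlam2 : lam ≠ 2)
    (chig : CuspForm.heckeAlgebra M 2 (↑S : Set ℕ) →+* ℂ)
    (_hchig : ∀ (ℓ : ℕ) (hℓ : ℓ.Prime) (hℓM : ¬ ℓ ∣ M) (hℓS : ℓ ∉ (↑S : Set ℕ)),
      chig (CuspForm.heckeAlgebra.T hℓ hℓM hℓS) = ModularFormClass.qCoeff g ℓ)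
    (iota : chig.range →+* O')
    (_hlamS : lam ∈ S) (_hMS : ∀ q : ℕ, q.Prime → q ∣ M → q ∈ S)
    (_hres : ∀ (O'' : Type) [CommRing O''] [IsDomain O''] [IsDiscreteValuationRing O'']
      [IsAdicComplete (IsLocalRing.maximalIdeal O'') O''] [Finite (IsLocalRing.ResidueField O'')] [CharZero O'']
      [Algebra O' O''] [Module.Finite O' O''] [IsLocalHom (algebraMap O' O'')],
      Function.Injective (algebraMap O' O'') → ∀ (ρ : GaloisRepAdic O''),
      (∀ (ℓ : ℕ) (hℓ : ℓ.Prime) (_hℓlam : ℓ ≠ lam) (hℓM : ¬ ℓ ∣ M) (hℓS : ℓ ∉ (↑S : Set ℕ)),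
        ∀ A : ValuationSubring (AlgebraicClosure ℚ), A.LiesOverPrime ℓ →
          ∀ σ : AlgebraicClosure ℚ ≃ₐ[ℚ] AlgebraicClosure ℚ, A.IsFrobeniusAt σ ℓ →
            LinearMap.charpoly (ρ.ρ σ) =
              X ^ 2 - C (algebraMap O' O'' ((iota.comp chig.rangeRestrict) (CuspForm.heckeAlgebra.T hℓ hℓM hℓS))) * X
                + C ((ℓ : O'')))
      → ρ.residual.IsAbsolutelyIrreducible ∧ ρ.residual.IsOdd),
    ∃ (O'' : Type) (_ : CommRing O'') (_ : IsDomain O'') (_ : IsDiscreteValuationRing O'')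
      (_ : IsAdicComplete (IsLocalRing.maximalIdeal O'') O'') (_ : Finite (IsLocalRing.ResidueField O''))
      (_ : CharZero O'') (_ : Algebra O' O'') (_ : Module.Finite O' O'') (_ : IsLocalHom (algebraMap O' O'')),
      Function.Injective (algebraMap O' O'') ∧
      ∃ ρ : GaloisRepAdic O'',
        (∀ (ℓ : ℕ) (hℓ : ℓ.Prime) (hℓM : ¬ ℓ ∣ M) (hℓS : ℓ ∉ (↑S : Set ℕ)),
          ∀ A : ValuationSubring (AlgebraicClosure ℚ), A.LiesOverPrime ℓ →
            ∀ σ : AlgebraicClosure ℚ ≃ₐ[ℚ] AlgebraicClosure ℚ, A.IsFrobeniusAt σ ℓ →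
              LinearMap.charpoly (ρ.ρ σ) =
                X ^ 2 - C (algebraMap O' O'' ((iota.comp chig.rangeRestrict) (CuspForm.heckeAlgebra.T hℓ hℓM hℓS))) * X
                  + C ((ℓ : O''))) ∧
        (∀ q : ℕ, q.Prime → q ≠ lam → M.factorization q = 2 → ¬ ρ.IsUnipotentOnInertiaAt q)

/-- **Leaf FROB.** Frobenius elements exist at every prime. -/
def FrobExistsStatement : Prop :=
  ∀ ℓ : ℕ, ℓ.Prime → ∃ (A : ValuationSubring Qb) (σ : GQ), A.LiesOverPrime ℓ ∧
    A.IsFrobeniusAt σ ℓ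

/-- **Leaf TATE.** The `lam`-adic Tate module of a semistable `W` (`lam` odd), over any complete
DVR `O` of characteristic `0` with finite residue field of characteristic `lam`:
Frobenius characteristic polynomials at the good primes `ℓ ≠ lam` and unipotent inertia at
EVERY prime `q ≠ lam` (at the good primes the representation is even unramified).
No irreducibility hypothesis. -/
def TateRepStatement : Prop :=
  ∀ (lam : ℕ) [Fact lam.Prime] (_hlam2 : lam ≠ 2) (W : WeierstrassCurve ℤ) (_hΔ : W.Δ ≠ 0)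
    (_hW : W.IsSemistableModel)
    (O : Type) [CommRing O] [IsDomain O] [IsDiscreteValuationRing O]
    [IsAdicComplete (IsLocalRing.maximalIdeal O) O] [Finite (IsLocalRing.ResidueField O)]
    [CharZero O] (_hlamO : (lam : O) ∈ IsLocalRing.maximalIdeal O),
    ∃ ρ : GaloisRepAdic O,
      (∀ ℓ : ℕ, ℓ.Prime → W.IsGoodPrimeFor ℓ → ℓ ≠ lam →
        ∀ A : ValuationSubring Qb, A.LiesOverPrime ℓ → ∀ σ : GQ, A.IsFrobeniusAt σ ℓ →
          LinearMap.charpoly (ρ.ρ σ) = X ^ 2 - C ((W.apOfModel ℓ : ℤ) : O) * X + C ((ℓ : O))) ∧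
      (∀ q : ℕ, q.Prime → q ≠ lam → ρ.IsUnipotentOnInertiaAt q)

/-- **Leaf COEFF.** A normalized eigenform of level `M` has, for every finite set `S` of primes
and every prime `lam`, a character `chig` of the Hecke algebra away from `S` with
`chig (T_ℓ) = a_ℓ(g)` and a complete DVR `O'` of characteristic `0`, residue characteristic
`lam`, finite residue field, with an INJECTIVE ring homomorphism `chig.range →+* O'`
(completion of the ring of integers of the coefficient field at a prime above `lam`; any ring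
homomorphism `chig.range →+* O'` is injective because `chig.range` is integral over `ℤ`, S22). -/
def CoeffStatement : Prop :=
  ∀ (M : ℕ) [NeZero M] (g : CuspForm (CongruenceSubgroup.Gamma0 M) 2), g.IsNormalizedEigenform →
    ∀ (S : Finset ℕ) (lam : ℕ) [Fact lam.Prime],
    ∃ chig : CuspForm.heckeAlgebra M 2 (↑S : Set ℕ) →+* ℂ,
      (∀ (ℓ : ℕ) (hℓ : ℓ.Prime) (hℓM : ¬ ℓ ∣ M) (hℓS : ℓ ∉ (↑S : Set ℕ)),
        chig (CuspForm.heckeAlgebra.T hℓ hℓM hℓS) = ModularFormClass.qCoeff g ℓ) ∧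
      ∃ (O' : Type) (_ : CommRing O') (_ : IsDomain O') (_ : IsDiscreteValuationRing O')
        (_ : IsAdicComplete (IsLocalRing.maximalIdeal O') O')
        (_ : Finite (IsLocalRing.ResidueField O')) (_ : CharZero O'),
        (lam : O') ∈ IsLocalRing.maximalIdeal O' ∧
          ∃ iota : chig.range →+* O', Function.Injective iota

/-- **Leaf CHEB.** Two `GaloisRepAdic` over a complete DVR whose Frobenius characteristic
polynomials agree at all primes outside a finite set have the same characteristic polynomial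
at every element of `Gal(ℚ̄/ℚ)` (Chebotarev + adic continuity). -/
def ChebCharpolyStatement : Prop :=
  ∀ (O : Type) [CommRing O] [IsDomain O] [IsDiscreteValuationRing O]
    [IsAdicComplete (IsLocalRing.maximalIdeal O) O] [Finite (IsLocalRing.ResidueField O)]
    (ρ₁ ρ₂ : GaloisRepAdic O) (T : Finset ℕ),
    (∀ ℓ : ℕ, ℓ.Prime → ℓ ∉ T → ∀ A : ValuationSubring Qb, A.LiesOverPrime ℓ →
      ∀ σ : GQ, A.IsFrobeniusAt σ ℓ →
        LinearMap.charpoly (ρ₁.ρ σ) = LinearMap.charpoly (ρ₂.ρ σ)) →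
    ∀ σ : GQ, LinearMap.charpoly (ρ₁.ρ σ) = LinearMap.charpoly (ρ₂.ρ σ)

/-- **Leaf RES.** If `E[p]` is irreducible (`p` odd) and a `p`-adic representation `ρ` has the
Frobenius characteristic polynomials of `W` outside a finite set of primes, then the residual
representation of `ρ` is absolutely irreducible and odd. -/
def ResidualStatement : Prop :=
  ∀ (p : ℕ) [Fact p.Prime] (_hp2 : p ≠ 2) (W : WeierstrassCurve ℤ) (_hΔ : W.Δ ≠ 0)
    (_hirr : W.ModRepIsIrreducible p)
    (O : Type) [CommRing O] [IsDomain O] [IsDiscreteValuationRing O]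
    [IsAdicComplete (IsLocalRing.maximalIdeal O) O] [Finite (IsLocalRing.ResidueField O)]
    [CharZero O] (_hpO : (p : O) ∈ IsLocalRing.maximalIdeal O)
    (ρ : GaloisRepAdic O) (T : Finset ℕ),
    (∀ ℓ : ℕ, ℓ.Prime → ℓ ∉ T → ∀ A : ValuationSubring Qb, A.LiesOverPrime ℓ →
      ∀ σ : GQ, A.IsFrobeniusAt σ ℓ →
        LinearMap.charpoly (ρ.ρ σ) = X ^ 2 - C ((W.apOfModel ℓ : ℤ) : O) * X + C ((ℓ : O))) →
    ρ.residual.IsAbsolutelyIrreducible ∧ ρ.residual.IsOdd

/-- **Leaf COUNT.** `a_q(W) ≠ ±(q + 1)` at every prime `q`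
(from `1 ≤ #W(𝔽_q) ≤ 2 q + 1`). -/
def PointCountStatement : Prop :=
  ∀ (W : WeierstrassCurve ℤ) (q : ℕ), q.Prime →
    W.apOfModel q ≠ (q : ℤ) + 1 ∧ W.apOfModel q ≠ -((q : ℤ) + 1)

end Fermat.Agent.S58
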