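import Fermat.Agent.S58.Spec
import Fermat.Agent.Lib.Newform.H958.Spec

/-!
# S58 — glue (helper41): conductor–level matching from the leaves of `S58/Spec.lean`

`s58_of_leaves : S35Statement → S36Statement → FrobExistsStatement → TateRepStatement →
  CoeffStatement → ChebCharpolyStatement → ResidualStatement → PointCountStatement →
  Newform.Descent → Newform.Stab → S58Statement`
-/

set_option autoImplicit false

open Polynomial

namespace Fermat.Agent.S58

open Fermat.Agent.Lib.Newform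

section Poly

variable {R : Type} [CommRing R]

theorem coeff_one_quad (a b : R) : (X ^ 2 - C a * X + C b : R[X]).coeff 1 = -a := by
  simp [coeff_C]

theorem quad_left_injective {a a' b b' : R}
    (h : (X ^ 2 - C a * X + C b : R[X]) = X ^ 2 - C a' * X + C b') : a = a' := by
  have := congrArg (fun P : R[X] => P.coeff 1) h
  simp only [coeff_one_quad] at this
  exact neg_injective this

theorem quad_plus_eq (a b : R) : (X ^ 2 + C a * X + C b : R[X]) = X ^ 2 - C (-a) * X + C b := by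
  simp [sub_eq_add_neg]

end Poly

section Nat

theorem dvd_of_squarefree_of_prime_dvd {M D : ℕ} (hM : Squarefree M)
    (h : ∀ q : ℕ, q.Prime → q ∣ M → q ∣ D) : M ∣ D := by
  have hM0 : M ≠ 0 := hM.ne_zero
  rw [← Nat.prod_primeFactors_of_squarefree hM]
  refine Finset.prod_primes_dvd D (fun q hq => (Nat.prime_of_mem_primeFactors hq).prime)
    (fun q hq => h q (Nat.prime_of_mem_primeFactors hq) (Nat.dvd_of_mem_primeFactors hq))

theorem squarefree_of_forall_not_sq_dvd {M : ℕ}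
    (h : ∀ q : ℕ, q.Prime → ¬ q ^ 2 ∣ M) : Squarefree M := by
  rw [Nat.squarefree_iff_prime_squarefree]
  intro q hq hqq
  exact h q hq (by rwa [pow_two])

theorem factorization_eq_two_of_sq_dvd {M q : ℕ} (hq : q.Prime) (hM : M ≠ 0)
    (h2 : q ^ 2 ∣ M) (h3 : ¬ q ^ 3 ∣ M) : M.factorization q = 2 := by
  have h2' := (hq.pow_dvd_iff_le_factorization hM).1 h2
  have h3' : ¬ 3 ≤ M.factorization q := fun h => h3 ((hq.pow_dvd_iff_le_factorization hM).2 h)
  omega

end Nat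

section Iota

variable {M : ℕ} [NeZero M] {S : Set ℕ} {O' : Type} [CommRing O']

theorem iota_eq_intCast (chig : CuspForm.heckeAlgebra M 2 S →+* ℂ) (iota : chig.range →+* O')
    (t : CuspForm.heckeAlgebra M 2 S) (a : ℤ) (h : chig t = (a : ℂ)) :
    (iota.comp chig.rangeRestrict) t = (a : O') := by
  have h1 : chig.rangeRestrict t = ((a : ℤ) : chig.range) := Subtype.ext (by simpa using h)
  rw [RingHom.comp_apply, h1, map_intCast]

theorem eq_intCast_of_iota (chig : CuspForm.heckeAlgebra M 2 S →+* ℂ) (iota : chig.range →+* O')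
    (hiota : Function.Injective iota)
    (t : CuspForm.heckeAlgebra M 2 S) (a : ℤ) (h : (iota.comp chig.rangeRestrict) t = (a : O')) :
    chig t = (a : ℂ) := by
  have h1 : chig.rangeRestrict t = ((a : ℤ) : chig.range) :=
    hiota (by rw [map_intCast]; exact h)
  have h2 := congrArg Subtype.val h1
  simpa using h2

end Iota

/-- **Comparison with the Tate module.**  A `lam`-adic representation `ρ` with the Frobenius
characteristic polynomials of the newform `g` (level `M ∣ N`, same eigenvalues as `W` at the good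
primes not dividing `N`) has the characteristic polynomials of the Tate module of `W`:
it is unipotent on every inertia group away from `lam`, and `a_ℓ(g) = a_ℓ(W)` at all good
`ℓ ∤ M`, `ℓ ≠ lam`. -/
theorem compare_tate (htate : TateRepStatement) (hcheb : ChebCharpolyStatement)
    (W : WeierstrassCurve ℤ) (hΔ : W.Δ ≠ 0) (hss : W.IsSemistableModel)
    {N M : ℕ} (hN0 : N ≠ 0) (hMN : M ∣ N) [NeZero M]
    (g : CuspForm (CongruenceSubgroup.Gamma0 M) 2)
    (hgW : ∀ ℓ : ℕ, ℓ.Prime → W.IsGoodPrimeFor ℓ → ¬ ℓ ∣ N →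
      ModularFormClass.qCoeff g ℓ = (W.apOfModel ℓ : ℂ))
    (lam : ℕ) [Fact lam.Prime] (hlam2 : lam ≠ 2)
    (O' : Type) [CommRing O']
    (chig : CuspForm.heckeAlgebra M 2 (↑(insert lam M.primeFactors : Finset ℕ) : Set ℕ) →+* ℂ)
    (hchig : ∀ (ℓ : ℕ) (hℓ : ℓ.Prime) (hℓM : ¬ ℓ ∣ M)
      (hℓS : ℓ ∉ (↑(insert lam M.primeFactors : Finset ℕ) : Set ℕ)),
      chig (CuspForm.heckeAlgebra.T hℓ hℓM hℓS) = ModularFormClass.qCoeff g ℓ)
    (iota : chig.range →+* O')
    (O'' : Type) [CommRing O''] [IsDomain O''] [IsDiscreteValuationRing O'']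
    [IsAdicComplete (IsLocalRing.maximalIdeal O'') O''] [Finite (IsLocalRing.ResidueField O'')]
    [CharZero O''] [Algebra O' O'']
    (hlamO'' : (lam : O'') ∈ IsLocalRing.maximalIdeal O'')
    (ρ : GaloisRepAdic O'')
    (hρ : ∀ (ℓ : ℕ) (hℓ : ℓ.Prime) (hℓM : ¬ ℓ ∣ M)
      (hℓS : ℓ ∉ (↑(insert lam M.primeFactors : Finset ℕ) : Set ℕ)),
      ∀ A : ValuationSubring (AlgebraicClosure ℚ), A.LiesOverPrime ℓ →
        ∀ σ : AlgebraicClosure ℚ ≃ₐ[ℚ] AlgebraicClosure ℚ, A.IsFrobeniusAt σ ℓ →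
          LinearMap.charpoly (ρ.ρ σ) =
            X ^ 2 - C (algebraMap O' O'' ((iota.comp chig.rangeRestrict)
              (CuspForm.heckeAlgebra.T hℓ hℓM hℓS))) * X + C ((ℓ : O''))) :
    (∀ q : ℕ, q.Prime → q ≠ lam → ρ.IsUnipotentOnInertiaAt q) ∧
    (∀ ℓ : ℕ, ℓ.Prime → W.IsGoodPrimeFor ℓ → ℓ ≠ lam →
      ∀ A : ValuationSubring (AlgebraicClosure ℚ), A.LiesOverPrime ℓ →
        ∀ σ : AlgebraicClosure ℚ ≃ₐ[ℚ] AlgebraicClosure ℚ, A.IsFrobeniusAt σ ℓ →
          LinearMap.charpoly (ρ.ρ σ) =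
            X ^ 2 - C ((W.apOfModel ℓ : ℤ) : O'') * X + C ((ℓ : O''))) := by
  classical
  obtain ⟨ρW, hρW, hρWu⟩ := htate lam hlam2 W hΔ hss O'' hlamO''
  -- the finite set of excluded primes
  let T : Finset ℕ := N.primeFactors ∪ insert lam (W.Δ.natAbs.primeFactors)
  have hT : ∀ ℓ : ℕ, ℓ.Prime → ℓ ∉ T → ¬ ℓ ∣ N ∧ ℓ ≠ lam ∧ W.IsGoodPrimeFor ℓ := by
    intro ℓ hℓ hℓT
    simp only [T, Finset.mem_union, Finset.mem_insert, not_or] at hℓT
    refine ⟨fun h => hℓT.1 (Nat.mem_primeFactors.mpr ⟨hℓ, h, hN0⟩), hℓT.2.1, ?_⟩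
    intro h
    apply hℓT.2.2
    rw [Nat.mem_primeFactors]
    refine ⟨hℓ, ?_, Int.natAbs_ne_zero.mpr hΔ⟩
    exact Int.natCast_dvd.mp h
  have hall : ∀ σ : AlgebraicClosure ℚ ≃ₐ[ℚ] AlgebraicClosure ℚ,
      LinearMap.charpoly (ρ.ρ σ) = LinearMap.charpoly (ρW.ρ σ) := by
    refine hcheb O'' ρ ρW T ?_
    intro ℓ hℓ hℓT A hA σ hσ
    obtain ⟨hℓN, hℓlam, hℓgood⟩ := hT ℓ hℓ hℓT
    have hℓM : ¬ ℓ ∣ M := fun h => hℓN (dvd_trans h hMN)
    have hℓS : ℓ ∉ (↑(insert lam M.primeFactors : Finset ℕ) : Set ℕ) := by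
      simp only [Finset.coe_insert, Set.mem_insert_iff, Finset.mem_coe, not_or]
      exact ⟨hℓlam, fun h => hℓM (Nat.dvd_of_mem_primeFactors h)⟩
    rw [hρ ℓ hℓ hℓM hℓS A hA σ hσ, hρW ℓ hℓ hℓgood hℓlam A hA σ hσ,
      iota_eq_intCast chig iota _ (W.apOfModel ℓ)
        ((hchig ℓ hℓ hℓM hℓS).trans (hgW ℓ hℓ hℓgood hℓN)), map_intCast]
  refine ⟨?_, ?_⟩
  · intro q hq hqlam P hP σ hσ
    rw [hall σ]
    exact hρWu q hq hqlam P hP σ hσ
  · intro ℓ hℓ hgood hℓlam A hA σ hσ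
    rw [hall σ]
    exact hρW ℓ hℓ hgood hℓlam A hA σ hσ

/-- The image of a non-unit natural number under a local homomorphism is a non-unit. -/
theorem natCast_mem_maximalIdeal_of_isLocalHom {O' O'' : Type} [CommRing O'] [IsLocalRing O']
    [CommRing O''] [IsLocalRing O''] [Algebra O' O''] [IsLocalHom (algebraMap O' O'')] {n : ℕ}
    (h : (n : O') ∈ IsLocalRing.maximalIdeal O') : (n : O'') ∈ IsLocalRing.maximalIdeal O'' := by
  rw [IsLocalRing.mem_maximalIdeal, mem_nonunits_iff] at h ⊢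
  intro hu
  apply h
  have : algebraMap O' O'' (n : O') = (n : O'') := map_natCast _ _
  rw [← this] at hu
  exact IsUnit.of_map (algebraMap O' O'') _ hu

/-- **S58 from the leaves.** -/
theorem s58_of_leaves (h35 : S35Statement) (h36 : S36Statement) (hfrob : FrobExistsStatement)
    (htate : TateRepStatement) (hcoeff : CoeffStatement) (hcheb : ChebCharpolyStatement)
    (hres : ResidualStatement) (hcount : PointCountStatement)
    (hdesc : H958.Descent) (hstab : H958.Stab) : S58Statement := by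
  intro W hss N p _ hp2 hirr hp2N hN hbad hN3
  classical
  have hpp : p.Prime := Fact.out
  have hN0 : N ≠ 0 := by
    rintro rfl
    exact hN3 2 Nat.prime_two (dvd_zero _)
  haveI : NeZero N := ⟨hN0⟩
  have hΔ : W.Δ ≠ 0 := by
    intro h0
    obtain ⟨ℓ, hℓN, hℓ⟩ := Nat.exists_infinite_primes (N + 1)
    have h1 := hbad ℓ hℓ (by rw [h0]; exact dvd_zero _)
    have h2 := Nat.le_of_dvd (Nat.pos_of_ne_zero hN0) h1
    omega
  obtain ⟨f, hf, hfa⟩ := hN
  obtain ⟨M, hMN, g, hg, hga⟩ := hdesc N f hf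
  have hM0 : M ≠ 0 := fun h => hN0 (by rw [h] at hMN; exact zero_dvd_iff.mp hMN)
  haveI : NeZero M := ⟨hM0⟩
  have hgW : ∀ ℓ : ℕ, ℓ.Prime → W.IsGoodPrimeFor ℓ → ¬ ℓ ∣ N →
      ModularFormClass.qCoeff g ℓ = (W.apOfModel ℓ : ℂ) :=
    fun ℓ hℓ hgood hℓN => (hga ℓ hℓ hℓN).trans (hfa ℓ hℓ hgood hℓN)
  have hS : ∀ (lam ℓ : ℕ), ℓ.Prime → ℓ ≠ lam → ¬ ℓ ∣ M →
      ℓ ∉ (↑(insert lam M.primeFactors : Finset ℕ) : Set ℕ) := by
    intro lam ℓ _ hℓlam hℓM
    simp only [Finset.coe_insert, Set.mem_insert_iff, Finset.mem_coe, not_or]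
    exact ⟨hℓlam, fun h => hℓM (Nat.dvd_of_mem_primeFactors h)⟩
  have hMS : ∀ (lam q : ℕ), q.Prime → q ∣ M → q ∈ insert lam M.primeFactors :=
    fun lam q hq hqM => Finset.mem_insert_of_mem (Nat.mem_primeFactors.mpr ⟨hq, hqM, hM0⟩)
  -- the package at an odd prime `lam`, from S35
  have key : ∀ (lam : ℕ) [Fact lam.Prime], lam ≠ 2 →
      (∀ ℓ : ℕ, ℓ.Prime → W.IsGoodPrimeFor ℓ → ℓ ≠ lam → ¬ ℓ ∣ M →
        ModularFormClass.qCoeff g ℓ = (W.apOfModel ℓ : ℂ)) ∧
      (∀ q : ℕ, q.Prime → q ≠ lam → q ∣ M → ¬ q ^ 2 ∣ M → ¬ W.IsGoodPrimeFor q) := by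
    intro lam _ hlam2
    obtain ⟨chig, hchig, O', i1, i2, i3, i4, i5, i6, hlamO', iota, hiota⟩ :=
      hcoeff M g hg.1 (insert lam M.primeFactors) lam
    obtain ⟨O'', j1, j2, j3, j4, j5, j6, j7, j8, j9, hinj, ρ, hρ, hρst⟩ :=
      h35 hg lam (insert lam M.primeFactors) O' hlamO' chig hchig iota
        (Finset.mem_insert_self _ _) (hMS lam)
    have hlamO'' : (lam : O'') ∈ IsLocalRing.maximalIdeal O'' :=
      natCast_mem_maximalIdeal_of_isLocalHom hlamO'
    obtain ⟨-, hchar⟩ := compare_tate htate hcheb W hΔ hss hN0 hMN g hgW lam hlam2 O' chig hchig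
      iota O'' hlamO'' ρ hρ
    refine ⟨?_, ?_⟩
    · intro ℓ hℓ hgood hℓlam hℓM
      obtain ⟨A, σ, hA, hσ⟩ := hfrob ℓ hℓ
      have h1 := hρ ℓ hℓ hℓM (hS lam ℓ hℓ hℓlam hℓM) A hA σ hσ
      have h2 := hchar ℓ hℓ hgood hℓlam A hA σ hσ
      have h3 := quad_left_injective (h1.symm.trans h2)
      have h4 : (iota.comp chig.rangeRestrict)
          (CuspForm.heckeAlgebra.T hℓ hℓM (hS lam ℓ hℓ hℓlam hℓM)) = ((W.apOfModel ℓ : ℤ) : O') :=
        hinj (by rw [h3, map_intCast])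
      rw [← hchig ℓ hℓ hℓM (hS lam ℓ hℓ hℓlam hℓM)]
      exact eq_intCast_of_iota chig iota hiota _ _ h4
    · intro q hq hqlam hqM hq2 hgood
      obtain ⟨A, σ, hA, hσ⟩ := hfrob q hq
      have h2 := hchar q hq hgood hqlam A hA σ hσ
      rcases hρst q hq hqlam hqM hq2 A hA σ hσ with h1 | h1
      · have h3 := quad_left_injective (h1.symm.trans h2)
        have h4 : (((q : ℤ) + 1 : ℤ) : O'') = ((W.apOfModel q : ℤ) : O'') := by
          rw [← h3]; push_cast; rfl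
        exact (hcount W q hq).1 (Int.cast_injective h4).symm
      · rw [quad_plus_eq] at h1
        have h3 := quad_left_injective (h1.symm.trans h2)
        have h4 : ((-((q : ℤ) + 1) : ℤ) : O'') = ((W.apOfModel q : ℤ) : O'') := by
          rw [← h3]; push_cast; rfl
        exact (hcount W q hq).2 (Int.cast_injective h4).symm
  -- no prime `q ≠ p` with `q² ∥ M`, from S36
  have hno2 : ∀ q : ℕ, q.Prime → q ≠ p → M.factorization q ≠ 2 := by
    intro q hq hqp hfact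
    obtain ⟨chig, hchig, O', i1, i2, i3, i4, i5, i6, hlamO', iota, hiota⟩ :=
      hcoeff M g hg.1 (insert p M.primeFactors) p
    -- the set of primes excluded in the residual statement
    let T : Finset ℕ := N.primeFactors ∪ insert p (W.Δ.natAbs.primeFactors)
    have hT : ∀ ℓ : ℕ, ℓ.Prime → ℓ ∉ T → ¬ ℓ ∣ N ∧ ℓ ≠ p ∧ W.IsGoodPrimeFor ℓ := by
      intro ℓ hℓ hℓT
      simp only [T, Finset.mem_union, Finset.mem_insert, not_or] at hℓT
      refine ⟨fun h => hℓT.1 (Nat.mem_primeFactors.mpr ⟨hℓ, h, hN0⟩), hℓT.2.1, ?_⟩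
      intro h
      apply hℓT.2.2
      rw [Nat.mem_primeFactors]
      exact ⟨hℓ, Int.natCast_dvd.mp h, Int.natAbs_ne_zero.mpr hΔ⟩
    obtain ⟨O'', j1, j2, j3, j4, j5, j6, j7, j8, j9, hinj, ρ, hρ, hρnu⟩ :=
      h36 hg p (insert p M.primeFactors) O' hlamO' hp2 chig hchig iota
        (Finset.mem_insert_self _ _) (hMS p) (by
          intro O'' _ _ _ _ _ _ _ _ _ _ ρ hρ
          have hpO'' : (p : O'') ∈ IsLocalRing.maximalIdeal O'' :=
            natCast_mem_maximalIdeal_of_isLocalHom hlamO'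
          refine hres p hp2 W hΔ hirr O'' hpO'' ρ T ?_
          intro ℓ hℓ hℓT A hA σ hσ
          obtain ⟨hℓN, hℓp, hℓgood⟩ := hT ℓ hℓ hℓT
          have hℓM : ¬ ℓ ∣ M := fun h => hℓN (dvd_trans h hMN)
          rw [hρ ℓ hℓ hℓp hℓM (hS p ℓ hℓ hℓp hℓM) A hA σ hσ,
            iota_eq_intCast chig iota _ (W.apOfModel ℓ)
              ((hchig ℓ hℓ hℓM (hS p ℓ hℓ hℓp hℓM)).trans (hgW ℓ hℓ hℓgood hℓN)), map_intCast])
    have hpO'' : (p : O'') ∈ IsLocalRing.maximalIdeal O'' :=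
      natCast_mem_maximalIdeal_of_isLocalHom hlamO'
    obtain ⟨hunip, -⟩ := compare_tate htate hcheb W hΔ hss hN0 hMN g hgW p hp2 O' chig hchig
      iota O'' hpO'' ρ hρ
    exact hρnu q hq hqp hfact (hunip q hq hqp)
  -- a second odd prime
  obtain ⟨p', hp', hp'2, hp'p⟩ : ∃ p' : ℕ, p'.Prime ∧ p' ≠ 2 ∧ p' ≠ p := by
    by_cases h3 : p = 3
    · exact ⟨5, by norm_num, by norm_num, by omega⟩
    · exact ⟨3, by norm_num, by norm_num, fun h => h3 h.symm⟩
  haveI : Fact p'.Prime := ⟨hp'⟩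
  obtain ⟨hB, hC⟩ := key p hp2
  obtain ⟨hB', hC'⟩ := key p' hp'2
  -- `M` is squarefree
  have hsq : Squarefree M := by
    refine squarefree_of_forall_not_sq_dvd fun q hq hq2 => ?_
    by_cases hqp : q = p
    · subst hqp
      exact hp2N (dvd_trans hq2 hMN)
    · exact hno2 q hq hqp (factorization_eq_two_of_sq_dvd hq hM0 hq2
        (fun h3 => hN3 q hq (dvd_trans h3 hMN)))
  -- the primes of `M` are bad
  have hMbad : ∀ q : ℕ, q.Prime → q ∣ M → (q : ℤ) ∣ W.Δ := by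
    intro q hq hqM
    have hq2 : ¬ q ^ 2 ∣ M := by
      intro h
      have := (Nat.squarefree_iff_prime_squarefree.mp hsq) q hq
      exact this (by rwa [← pow_two])
    by_contra hgood
    by_cases hqp : q = p
    · exact hC' q hq (fun h => hp'p (h.symm.trans hqp)) hqM hq2 hgood
    · exact hC q hq hqp hqM hq2 hgood
  have hMD : M ∣ W.conductorLevel :=
    dvd_of_squarefree_of_prime_dvd hsq fun q hq hqM =>
      (W.prime_dvd_conductorLevel_iff hΔ hq).mpr (hMbad q hq hqM)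
  obtain ⟨g', hg', hg'a⟩ := hstab M W.conductorLevel hMD g hg.1
  refine ⟨g', hg', fun ℓ hℓ hgood hℓD => ?_⟩
  have hℓM : ¬ ℓ ∣ M := fun h => hℓD (dvd_trans h hMD)
  rw [hg'a ℓ hℓ hℓD]
  by_cases hℓp : ℓ = p
  · exact hB' ℓ hℓ hgood (fun h => hp'p (h.symm.trans hℓp)) hℓM
  · exact hB ℓ hℓ hgood hℓp hℓM

end Fermat.Agent.S58
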